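import Mathlib.Algebra.Central.Basic
import Mathlib.LinearAlgebra.Basis.VectorSpace
import Mathlib.LinearAlgebra.TensorProduct.Basis
import Mathlib.RingTheory.Flat.Basic
import Mathlib.RingTheory.SimpleRing.Basic
import Mathlib.RingTheory.TensorProduct.Free

/-!
# A simple algebra tensored with a central simple algebra is simple
-/

set_option autoImplicit false

noncomputable section

open scoped TensorProduct

namespace FA.CSA

variable (F : Type*) [Field F] (B A : Type*) [Ring B] [Algebra F B] [Ring A] [Algebra F A]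

/-- **A simple algebra tensored with a central simple algebra is simple.** -/
theorem isSimpleRing_tensorProduct [IsSimpleRing B] [IsSimpleRing A] [Algebra.IsCentral F A] :
    IsSimpleRing (B ⊗[F] A) := by
  classical
  have : Nontrivial (B ⊗[F] A) :=
    (Algebra.TensorProduct.includeRight_injective (A := B) (B := A)
      (algebraMap F B).injective).nontrivial
  refine IsSimpleRing.of_eq_bot_or_eq_top fun I => or_iff_not_imp_left.2 fun hI => ?_
  let b := Module.Basis.ofVectorSpace F B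
  let c := TensorProduct.equivFinsuppOfBasisLeft (N := A) b
  have hc : ∀ (x : A) (y : B ⊗[F] A) i,
      c (((1 : B) ⊗ₜ[F] x) * y) i = x * c y i ∧ c (y * ((1 : B) ⊗ₜ[F] x)) i = c y i * x := by
    intro x y i
    induction y using TensorProduct.induction_on with
    | zero => simp
    | tmul a z => simp [c, Algebra.TensorProduct.tmul_mul_tmul]
    | add u v hu hv => simp [mul_add, add_mul, hu.1, hu.2, hv.1, hv.2]
  -- a nonzero element of `I` of least support, with one coordinate `1`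
  have hex : ∃ k, ∃ y ∈ I, y ≠ 0 ∧ (c y).support.card = k := by
    by_contra! h
    refine hI (eq_bot_iff.2 fun y hy => (TwoSidedIdeal.mem_bot _).2 ?_)
    by_contra hy0
    exact h _ y hy hy0 rfl
  obtain ⟨y₀, hy₀, hy₀0, hk⟩ := Nat.find_spec hex
  have hmin : ∀ y ∈ I, (c y).support ⊂ (c y₀).support → y = 0 := fun y hy hsub => by
    by_contra hy0
    exact Nat.find_min hex (hk ▸ Finset.card_lt_card hsub) ⟨y, hy, hy0, rfl⟩
  obtain ⟨i₀, hi₀⟩ := Finsupp.support_nonempty_iff.2 (c.map_ne_zero_iff.2 hy₀0)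
  let J : TwoSidedIdeal A := TwoSidedIdeal.mk'
    {x | ∃ y ∈ I, (c y).support ⊆ (c y₀).support ∧ c y i₀ = x}
    ⟨0, I.zero_mem, by simp, by simp⟩
    (fun {x x'} ⟨y, hy, hs, hx⟩ ⟨y', hy', hs', hx'⟩ => ⟨y + y', I.add_mem hy hy', by
      rw [map_add]
      exact Finsupp.support_add.trans (Finset.union_subset hs hs'), by simp [hx, hx']⟩)
    (fun {x} ⟨y, hy, hs, hx⟩ => ⟨-y, I.neg_mem hy, by simpa using hs, by simp [hx]⟩)
    (fun {z x} ⟨y, hy, hs, hx⟩ => ⟨((1 : B) ⊗ₜ[F] z) * y, I.mul_mem_left _ _ hy,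
      fun i hi => hs (Finsupp.mem_support_iff.2 fun h => Finsupp.mem_support_iff.1 hi (by
        rw [(hc z y i).1, h, mul_zero])), by rw [(hc z y i₀).1, hx]⟩)
    (fun {x z} ⟨y, hy, hs, hx⟩ => ⟨y * ((1 : B) ⊗ₜ[F] z), I.mul_mem_right _ _ hy,
      fun i hi => hs (Finsupp.mem_support_iff.2 fun h => Finsupp.mem_support_iff.1 hi (by
        rw [(hc z y i).2, h, zero_mul])), by rw [(hc z y i₀).2, hx]⟩)
  have hJ : J = ⊤ := (IsSimpleRing.simple.eq_bot_or_eq_top J).resolve_left fun e =>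
    Finsupp.mem_support_iff.1 hi₀ ((TwoSidedIdeal.mem_bot _).1
      (e ▸ (TwoSidedIdeal.mem_mk' _ _ _ _ _ _ _).2 ⟨y₀, hy₀, subset_rfl, rfl⟩))
  obtain ⟨y, hy, hs, h1⟩ := (TwoSidedIdeal.mem_mk' _ _ _ _ _ _ (1 : A)).1
    (show (1 : A) ∈ J by rw [hJ]; trivial)
  -- its coordinates are central
  have hcomm : ∀ x : A, ((1 : B) ⊗ₜ[F] x) * y = y * ((1 : B) ⊗ₜ[F] x) := fun x => by
    refine sub_eq_zero.1 (hmin _ (I.sub_mem (I.mul_mem_left _ _ hy) (I.mul_mem_right _ _ hy)) ?_)
    refine Finset.ssubset_iff_subset_ne.2 ⟨fun i hi => ?_, fun e => ?_⟩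
    · refine hs (Finsupp.mem_support_iff.2 fun h => Finsupp.mem_support_iff.1 hi ?_)
      rw [map_sub, Finsupp.sub_apply, (hc x y i).1, (hc x y i).2, h, mul_zero, zero_mul, sub_zero]
    · rw [← e] at hi₀
      refine Finsupp.mem_support_iff.1 hi₀ ?_
      rw [map_sub, Finsupp.sub_apply, (hc x y i₀).1, (hc x y i₀).2, h1, mul_one, one_mul, sub_self]
  have hcen : ∀ i, ∃ α : F, algebraMap F A α = c y i := fun i => by
    have hm : c y i ∈ Subalgebra.center F A := Subalgebra.mem_center_iff.2 fun x => by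
      rw [← (hc x y i).1, hcomm x, (hc x y i).2]
    exact Algebra.mem_bot.1 (Algebra.IsCentral.out hm)
  choose α hα using hcen
  set a := ∑ i ∈ (c y).support, α i • b i
  have e : y = a ⊗ₜ[F] (1 : A) := by
    conv_lhs => rw [← c.symm_apply_apply y]
    rw [TensorProduct.sum_tmul, TensorProduct.equivFinsuppOfBasisLeft_symm_apply, Finsupp.sum]
    exact Finset.sum_congr rfl fun i _ => by
      rw [TensorProduct.smul_tmul, ← Algebra.algebraMap_eq_smul_one, hα]
  -- the elements `x ⊗ 1` in `I` fill `B`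
  let J' : TwoSidedIdeal B := TwoSidedIdeal.mk' {x | x ⊗ₜ[F] (1 : A) ∈ I}
    (by simp)
    (fun {x x'} hx hx' => by simpa [TensorProduct.add_tmul] using I.add_mem hx hx')
    (fun {x} hx => by simpa [TensorProduct.neg_tmul] using I.neg_mem hx)
    (fun {z x} hx => by simpa using I.mul_mem_left (z ⊗ₜ[F] (1 : A)) _ hx)
    (fun {x z} hx => by simpa using I.mul_mem_right _ (z ⊗ₜ[F] (1 : A)) hx)
  have hJ' : J' = ⊤ := (IsSimpleRing.simple.eq_bot_or_eq_top J').resolve_left fun h => by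
    have ha : a = 0 := (TwoSidedIdeal.mem_bot _).1
      (h ▸ (TwoSidedIdeal.mem_mk' _ _ _ _ _ _ _).2 (show a ⊗ₜ[F] (1 : A) ∈ I from e ▸ hy))
    rw [e, ha, TensorProduct.zero_tmul, map_zero, Finsupp.zero_apply] at h1
    exact zero_ne_one h1
  exact I.one_mem_iff.1
    ((TwoSidedIdeal.mem_mk' _ _ _ _ _ _ (1 : B)).1 (show (1 : B) ∈ J' by rw [hJ']; trivial))

end FA.CSA

end
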