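import Fermat.Agent.CSA.Module
import Fermat.Agent.CSA.Tensor
import Mathlib.Algebra.Azumaya.Defs

/-!
# The theorems of Skolem–Noether and of the centraliser

For `f : B →ₐ[F] A` the algebra `B ⊗ Aᵐᵒᵖ` acts on `A` by `(b ⊗ a) x = f b x a`.
-/

set_option autoImplicit false

noncomputable section

open scoped TensorProduct
open Module MulOpposite

namespace FA.CSA

variable {F : Type*} [Field F] {B A : Type*} [Ring B] [Algebra F B] [Ring A] [Algebra F A]

/-- `A` with the action of `B ⊗ Aᵐᵒᵖ` through `f`. -/
def Twist (_f : B →ₐ[F] A) : Type _ := A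

/-- The action of `B ⊗ Aᵐᵒᵖ` on `A`. -/
def twistHom (f : B →ₐ[F] A) : B ⊗[F] Aᵐᵒᵖ →ₐ[F] Module.End F A :=
  (AlgHom.mulLeftRight F A).comp (Algebra.TensorProduct.map f (AlgHom.id F Aᵐᵒᵖ))

variable (f : B →ₐ[F] A)

instance instAddCommGroupTwist : AddCommGroup (Twist f) := inferInstanceAs (AddCommGroup A)

instance instModuleFieldTwist : Module F (Twist f) := inferInstanceAs (Module F A)

instance instModuleTwist : Module (B ⊗[F] Aᵐᵒᵖ) (Twist f) :=
  Module.compHom A (twistHom f).toRingHom

/-- `A` as a twisted module. -/
def twistEquiv : A ≃ₗ[F] Twist f := LinearEquiv.refl F A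

theorem twistEquiv_symm_smul (r : B ⊗[F] Aᵐᵒᵖ) (x : Twist f) :
    (twistEquiv f).symm (r • x) = twistHom f r ((twistEquiv f).symm x) := rfl

instance instIsScalarTowerTwist : IsScalarTower F (B ⊗[F] Aᵐᵒᵖ) (Twist f) := ⟨fun c r x =>
  (twistEquiv f).symm.injective (by
    rw [twistEquiv_symm_smul, map_smul (twistHom f), LinearMap.smul_apply, map_smul,
      twistEquiv_symm_smul])⟩

instance instSMulCommClassTwist : SMulCommClass (B ⊗[F] Aᵐᵒᵖ) F (Twist f) := ⟨fun r c x =>
  (twistEquiv f).symm.injective (by
    rw [twistEquiv_symm_smul, map_smul, map_smul, map_smul, twistEquiv_symm_smul])⟩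

instance instFiniteTwist [FiniteDimensional F A] : FiniteDimensional F (Twist f) :=
  inferInstanceAs (FiniteDimensional F A)

instance instNontrivialTwist [Nontrivial A] : Nontrivial (Twist f) :=
  inferInstanceAs (Nontrivial A)

variable {f}

/-- Linear maps commute with the two-sided action. -/
theorem twist_map {g : B →ₐ[F] A} (θ : Twist f →ₗ[B ⊗[F] Aᵐᵒᵖ] Twist g) (b : B) (a x : A) :
    (twistEquiv g).symm (θ (twistEquiv f (f b * x * a))) =
      g b * (twistEquiv g).symm (θ (twistEquiv f x)) * a := by
  have h : (twistEquiv f) (f b * x * a) = (b ⊗ₜ[F] op a) • twistEquiv f x :=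
    (twistEquiv f).symm.injective (by simp [twistEquiv_symm_smul, twistHom])
  rw [h, θ.map_smul, twistEquiv_symm_smul]
  simp [twistHom]

variable [IsSimpleRing B] [FiniteDimensional F B] [IsSimpleRing A] [Algebra.IsCentral F A]
  [FiniteDimensional F A]

omit [FiniteDimensional F B] [FiniteDimensional F A] in
/-- The algebra that acts on `A` is simple. -/
theorem isSimpleRing_twist : IsSimpleRing (B ⊗[F] Aᵐᵒᵖ) :=
  isSimpleRing_tensorProduct F B Aᵐᵒᵖ

/-- **The theorem of Skolem and Noether.** -/
theorem exists_conj (f g : B →ₐ[F] A) : ∃ u : Aˣ, ∀ b, g b = u * f b * (↑u⁻¹ : A) := by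
  have := isSimpleRing_twist (F := F) (B := B) (A := A)
  have hfg : finrank F (Twist f) = finrank F (Twist g) :=
    (twistEquiv f).finrank_eq.symm.trans (twistEquiv g).finrank_eq
  obtain ⟨θ⟩ := nonempty_linearEquiv_of_finrank_eq F (R := B ⊗[F] Aᵐᵒᵖ) (Twist f) (Twist g) hfg
  let u : A → A := fun a => (twistEquiv g).symm (θ (twistEquiv f a))
  set v : A := u 1
  have h1 : ∀ a : A, u a = v * a := fun a => by
    simpa [u, v] using twist_map θ.toLinearMap 1 a 1
  have hu : Function.Bijective u := ((twistEquiv g).symm.bijective.comp θ.bijective).comp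
    (twistEquiv f).bijective
  obtain ⟨x, hx⟩ := hu.2 1
  have hvx : v * x = 1 := (h1 x).symm.trans hx
  have hxv : x * v = 1 := hu.1 (by
    rw [h1, h1, ← mul_assoc, hvx, one_mul, mul_one])
  refine ⟨⟨v, x, hvx, hxv⟩, fun b => ?_⟩
  have h2 : u (f b) = g b * v := by
    simpa [u, v] using twist_map θ.toLinearMap b 1 1
  rw [h1] at h2
  show g b = v * f b * x
  rw [h2, mul_assoc, hvx, mul_one]

variable (S : Subalgebra F A)

omit [IsSimpleRing A] [Algebra.IsCentral F A] [FiniteDimensional F A] in
/-- The centraliser as endomorphisms. -/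
def centralizerEquiv : Module.End (S ⊗[F] Aᵐᵒᵖ) (Twist S.val) ≃ₐ[F]
    Subalgebra.centralizer F (S : Set A) :=
  AlgEquiv.ofLinearEquiv
    { toFun := fun θ => ⟨(twistEquiv S.val).symm (θ (twistEquiv S.val 1)),
        (Subalgebra.mem_centralizer_iff F).2 fun b hb => by
          have h1 := twist_map θ ⟨b, hb⟩ 1 1
          have h2 := twist_map θ 1 b 1
          simp only [Subalgebra.coe_val, mul_one, one_mul, map_one] at h1 h2
          exact h1.symm.trans h2⟩
      map_add' := fun θ θ' => Subtype.ext (by simp)
      map_smul' := fun c θ => Subtype.ext (by simp)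
      invFun := fun c =>
        { toFun := fun x => twistEquiv S.val ((c : A) * (twistEquiv S.val).symm x)
          map_add' := fun x y => by rw [map_add, mul_add, map_add]
          map_smul' := fun r x => (twistEquiv S.val).symm.injective (by
            simp only [RingHom.id_apply, twistEquiv_symm_smul, LinearEquiv.symm_apply_apply]
            induction r using TensorProduct.induction_on with
            | zero => simp
            | tmul b a =>
              simp only [twistHom, AlgHom.comp_apply, Algebra.TensorProduct.map_tmul,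
                AlgHom.mulLeftRight_apply, Subalgebra.coe_val, AlgHom.coe_id, id_eq]
              rw [← mul_assoc, ← mul_assoc, ← mul_assoc,
                (Subalgebra.mem_centralizer_iff F).1 c.2 b b.2]
            | add u v hu hv => simp [hu, hv, mul_add]) }
      left_inv := fun θ => LinearMap.ext fun x => by
        have h := twist_map θ 1 ((twistEquiv S.val).symm x) 1
        simp only [map_one, one_mul, mul_one, LinearEquiv.apply_symm_apply] at h
        refine (twistEquiv S.val).symm.injective ?_
        simp [h]
      right_inv := fun c => Subtype.ext (by simp) }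
    (Subtype.ext (by simp)) fun θ θ' => Subtype.ext (by
      have h := twist_map θ 1 ((twistEquiv S.val).symm (θ' (twistEquiv S.val 1))) 1
      simp only [map_one, one_mul, mul_one, LinearEquiv.apply_symm_apply] at h
      simpa using h)

/-- **The centraliser theorem**: `dim S * dim C(S) = dim A`. -/
theorem finrank_centralizer [IsSimpleRing S] :
    finrank F S * finrank F (Subalgebra.centralizer F (S : Set A)) = finrank F A := by
  have := isSimpleRing_twist (F := F) (B := S) (A := A)
  have h := finrank_end_mul F (R := S ⊗[F] Aᵐᵒᵖ) (Twist S.val)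
  rw [(centralizerEquiv S).toLinearEquiv.finrank_eq, Module.finrank_tensorProduct,
    ← (MulOpposite.opLinearEquiv F : A ≃ₗ[F] Aᵐᵒᵖ).finrank_eq,
    show finrank F (Twist S.val) = finrank F A from rfl, sq] at h
  exact Nat.eq_of_mul_eq_mul_right (Module.finrank_pos (R := F) (M := A)) (by rw [← h]; ring)

/-- The centraliser of a simple subalgebra is simple. -/
theorem isSimpleRing_centralizer [IsSimpleRing S] :
    IsSimpleRing (Subalgebra.centralizer F (S : Set A)) :=
  have := isSimpleRing_twist (F := F) (B := S) (A := A)
  IsSimpleRing.of_ringEquiv (centralizerEquiv S).toRingEquiv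
    (isSimpleRing_end F (R := S ⊗[F] Aᵐᵒᵖ) (Twist S.val))

/-- **The double centraliser theorem.** -/
theorem centralizer_centralizer [IsSimpleRing S] :
    Subalgebra.centralizer F (Subalgebra.centralizer F (S : Set A) : Set A) = S := by
  have := isSimpleRing_centralizer S
  refine (Subalgebra.eq_of_le_of_finrank_eq (fun b hb => Subalgebra.mem_centralizer_iff F |>.2
    fun c hc => (Subalgebra.mem_centralizer_iff F |>.1 hc b hb).symm) ?_).symm
  exact Nat.eq_of_mul_eq_mul_left
    (Module.finrank_pos (R := F) (M := Subalgebra.centralizer F (S : Set A)))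
    (((mul_comm _ _).trans (finrank_centralizer S)).trans (finrank_centralizer _).symm)

end FA.CSA

end
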