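import Fermat.Agent.CSA.SkolemNoether
import Mathlib.FieldTheory.JacobsonNoether
import Mathlib.FieldTheory.SeparableDegree
import Mathlib.RingTheory.AdjoinRoot

/-!
# Maximal subfields of division algebras

A central division algebra has a separable subfield equal to its centraliser: its dimension is the
square of the degree of the subfield, which splits it.
-/

set_option autoImplicit false

noncomputable section

open scoped TensorProduct
open Module

namespace FA.CSA

variable {F : Type*} [Field F] {D : Type*} [DivisionRing D] [Algebra F D] [FiniteDimensional F D]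

/-- A commutative subalgebra of a finite-dimensional division algebra is a field. -/
theorem isField_of_comm (L : Subalgebra F D) (h : ∀ x ∈ L, ∀ y ∈ L, x * y = y * x) : IsField L where
  exists_pair_ne := ⟨0, 1, zero_ne_one⟩
  mul_comm x y := Subtype.ext (h x x.2 y y.2)
  mul_inv_cancel {x} hx := by
    have hinj : Function.Injective (LinearMap.mulLeft F x) := fun y z hyz => mul_left_cancel₀ hx hyz
    exact (LinearMap.injective_iff_surjective.1 hinj) 1

/-- A commutative subalgebra of a finite-dimensional division algebra is simple. -/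
theorem isSimpleRing_of_comm (L : Subalgebra F D) (h : ∀ x ∈ L, ∀ y ∈ L, x * y = y * x) :
    IsSimpleRing L :=
  let _ : Field L := (isField_of_comm L h).toField
  inferInstance

variable [Algebra.IsCentral F D]

/-- A separable subfield that differs from its centraliser is contained in a larger one. -/
theorem exists_larger_subfield {L : Subalgebra F D} (hcomm : ∀ x ∈ L, ∀ y ∈ L, x * y = y * x)
    (hsep : ∀ x ∈ L, IsSeparable F x) (hne : Subalgebra.centralizer F (L : Set D) ≠ L) :
    ∃ L' : Subalgebra F D, (∀ x ∈ L', ∀ y ∈ L', x * y = y * x) ∧ (∀ x ∈ L', IsSeparable F x) ∧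
      finrank F L < finrank F L' := by
  classical
  have := isSimpleRing_of_comm L hcomm
  let _ : Field L := (isField_of_comm L hcomm).toField
  set C := Subalgebra.centralizer F (L : Set D)
  have hLC : L ≤ C := fun x hx =>
    (Subalgebra.mem_centralizer_iff F).2 fun y hy => hcomm y hy x hx
  let _ : DivisionRing C := divisionRingOfFiniteDimensional F C
  let _ : Algebra L C := RingHom.toAlgebra' (Subalgebra.inclusion hLC).toRingHom fun a c =>
    Subtype.ext ((Subalgebra.mem_centralizer_iff F).1 c.2 a a.2)
  have : IsScalarTower F L C := IsScalarTower.of_algebraMap_eq fun _ => rfl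
  have : FiniteDimensional L C := Module.Finite.of_restrictScalars_finite F L C
  have : Algebra.IsCentral L C := ⟨fun z hz => by
    have hz' : (z : D) ∈ Subalgebra.centralizer F (C : Set D) :=
      (Subalgebra.mem_centralizer_iff F).2 fun c hc =>
        congrArg Subtype.val (Subalgebra.mem_center_iff.1 hz ⟨c, hc⟩)
    rw [centralizer_centralizer L] at hz'
    exact Algebra.mem_bot.2 ⟨⟨z, hz'⟩, Subtype.ext rfl⟩⟩
  obtain ⟨x, hx, hxs⟩ := JacobsonNoether.exists_separable_and_not_isCentral' (L := L) (D := C)
    fun h => hne (le_antisymm (fun c hc => by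
      obtain ⟨a, ha⟩ := Algebra.mem_bot.1
        (show (⟨c, hc⟩ : C) ∈ (⊥ : Subalgebra L C) by rw [h]; exact Algebra.mem_top)
      rw [show c = (a : D) from congrArg Subtype.val ha.symm]
      exact a.2) hLC)
  have hint : IsIntegral L x := .of_finite L x
  set p := minpoly L x
  have : Fact (Irreducible p) := ⟨minpoly.irreducible hint⟩
  let j : AdjoinRoot p →+* C := Ideal.Quotient.lift _ (Polynomial.aeval x).toRingHom fun q hq => by
    obtain ⟨s, rfl⟩ := Ideal.mem_span_singleton'.1 hq
    simp [p]
  let ψ : AdjoinRoot p →ₐ[F] D :=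
    { toRingHom := C.val.toRingHom.comp j
      commutes' := fun c => by
        rw [IsScalarTower.algebraMap_apply F L (AdjoinRoot p), AdjoinRoot.algebraMap_eq]
        show ((Polynomial.aeval x (Polynomial.C (algebraMap F L c)) : C) : D) = algebraMap F D c
        rw [Polynomial.aeval_C]
        rfl }
  have hψ : Function.Injective ψ := ψ.toRingHom.injective
  have : Algebra.IsSeparable L (AdjoinRoot p) := by
    have h1 : IsSeparable L (AdjoinRoot.root p) := by
      rw [IsSeparable, AdjoinRoot.minpoly_root (minpoly.ne_zero hint),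
        (minpoly.monic hint).leadingCoeff, inv_one, map_one, mul_one]
      exact hxs
    have h2 := (IntermediateField.isSeparable_adjoin_simple_iff_isSeparable L (AdjoinRoot p)).2 h1
    have htop : IntermediateField.adjoin L {AdjoinRoot.root p} = ⊤ :=
      IntermediateField.adjoin_eq_top_of_algebra _ _ (AdjoinRoot.adjoinRoot_eq_top)
    rw [htop] at h2
    exact AlgEquiv.Algebra.isSeparable IntermediateField.topEquiv
  have : FiniteDimensional L (AdjoinRoot p) :=
    (AdjoinRoot.powerBasis (minpoly.ne_zero hint)).finite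
  have : Algebra.IsSeparable F L := ⟨fun a =>
    (isSeparable_map_iff L.val Subtype.val_injective).1 (hsep a a.2)⟩
  have : Algebra.IsSeparable F (AdjoinRoot p) := Algebra.IsSeparable.trans F L _
  refine ⟨ψ.range, ?_, ?_, ?_⟩
  · rintro _ ⟨a, rfl⟩ _ ⟨b, rfl⟩
    show ψ a * ψ b = ψ b * ψ a
    rw [← map_mul, mul_comm, map_mul]
  · rintro _ ⟨a, rfl⟩
    exact (isSeparable_map_iff ψ hψ).2 (Algebra.IsSeparable.isSeparable F a)
  · rw [← (AlgEquiv.ofInjective ψ hψ).toLinearEquiv.finrank_eq,
      ← Module.finrank_mul_finrank F L (AdjoinRoot p),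
      (AdjoinRoot.powerBasis (minpoly.ne_zero hint)).finrank, AdjoinRoot.powerBasis_dim]
    refine lt_mul_of_one_lt_right Module.finrank_pos ?_
    have h1 := minpoly.natDegree_pos hint
    have h2 : (minpoly L x).natDegree ≠ 1 := fun h => hx (by
      obtain ⟨a, ha⟩ := minpoly.natDegree_eq_one_iff.1 h
      exact Algebra.mem_bot.2 ⟨a, ha⟩)
    omega

/-- **A separable maximal subfield**, its own centraliser; the dimension is the square of its
degree. -/
theorem exists_maximal_subfield : ∃ L : Subalgebra F D, (∀ x ∈ L, ∀ y ∈ L, x * y = y * x) ∧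
    (∀ x ∈ L, IsSeparable F x) ∧ Subalgebra.centralizer F (L : Set D) = L ∧
      finrank F L ^ 2 = finrank F D := by
  classical
  let P : ℕ → Prop := fun k => ∃ L : Subalgebra F D, (∀ x ∈ L, ∀ y ∈ L, x * y = y * x) ∧
    (∀ x ∈ L, IsSeparable F x) ∧ finrank F L = k
  have hP : P 1 := ⟨⊥, fun x hx y _ => by
    obtain ⟨a, rfl⟩ := Algebra.mem_bot.1 hx
    exact Algebra.commutes a y, fun x hx => by
      obtain ⟨a, rfl⟩ := Algebra.mem_bot.1 hx
      exact isSeparable_algebraMap a, Subalgebra.finrank_bot⟩
  obtain ⟨L, hc, hs, hk⟩ := Nat.findGreatest_spec (P := P) (Module.finrank_pos : 1 ≤ finrank F D) hP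
  have hC : Subalgebra.centralizer F (L : Set D) = L := by
    by_contra hne
    obtain ⟨L', hc', hs', hlt⟩ := exists_larger_subfield hc hs hne
    have := Nat.le_findGreatest (P := P) (Submodule.finrank_le (Subalgebra.toSubmodule L'))
      ⟨L', hc', hs', rfl⟩
    change finrank F L' ≤ _ at this
    omega
  have := isSimpleRing_of_comm L hc
  refine ⟨L, hc, hs, hC, ?_⟩
  have h := finrank_centralizer L
  rw [hC] at h
  rw [sq, h]

/-- **A separable splitting field**: some separable extension of degree `n`, `n ^ 2 = dim D`, turns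
`D` into matrices. -/
theorem exists_splitting :
    ∃ L : Subalgebra F Dᵐᵒᵖ, ∃ h : IsField L, Algebra.IsSeparable F L ∧
      finrank F L ^ 2 = finrank F D ∧
      letI := h.toField
      Nonempty ((L ⊗[F] D) ≃ₐ[L] Matrix (Fin (finrank F L)) (Fin (finrank F L)) L) := by
  obtain ⟨L, hc, hs, hC, hn⟩ := exists_maximal_subfield (F := F) (D := Dᵐᵒᵖ)
  refine ⟨L, isField_of_comm L hc,
    ⟨fun a => (isSeparable_map_iff L.val Subtype.val_injective).1 (hs a a.2)⟩, ?_, ?_⟩
  · rw [hn, ← (MulOpposite.opLinearEquiv F : D ≃ₗ[F] Dᵐᵒᵖ).finrank_eq]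
  let _ : Field L := (isField_of_comm L hc).toField
  have : FiniteDimensional L Dᵐᵒᵖ := Module.Finite.of_restrictScalars_finite F L _
  have hdim : finrank L Dᵐᵒᵖ = finrank F L := by
    have h := Module.finrank_mul_finrank F L Dᵐᵒᵖ
    rw [← hn, sq] at h
    exact Nat.eq_of_mul_eq_mul_left Module.finrank_pos h
  let φ : D →ₐ[F] Module.End L Dᵐᵒᵖ :=
    { toFun := fun d =>
        { toFun := fun x => x * MulOpposite.op d
          map_add' := fun x y => add_mul x y _
          map_smul' := fun a x => mul_assoc (a : Dᵐᵒᵖ) x _ }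
      map_one' := LinearMap.ext fun x => mul_one x
      map_mul' := fun d d' => LinearMap.ext fun x => (mul_assoc x _ _).symm
      map_zero' := LinearMap.ext fun x => mul_zero x
      map_add' := fun d d' => LinearMap.ext fun x => mul_add x _ _
      commutes' := fun c => LinearMap.ext fun x => by
        show x * algebraMap F Dᵐᵒᵖ c = (algebraMap F (Module.End L Dᵐᵒᵖ) c) x
        rw [Module.algebraMap_end_apply, ← Algebra.commutes, Algebra.smul_def] }
  let Φ : L ⊗[F] D →ₐ[L] Module.End L Dᵐᵒᵖ :=
    Algebra.TensorProduct.lift (Algebra.ofId L _) φ fun a d => Algebra.commutes a _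
  have : IsSimpleRing (L ⊗[F] D) := isSimpleRing_tensorProduct F L D
  have : Nontrivial (Module.End L Dᵐᵒᵖ) := inferInstance
  have hinj : Function.Injective Φ := Φ.toRingHom.injective
  have hsurj : Function.Surjective Φ := by
    refine (LinearMap.injective_iff_surjective_of_finrank_eq_finrank (f := Φ.toLinearMap) ?_).1 hinj
    rw [Module.finrank_baseChange, Module.finrank_linearMap, hdim,
      (MulOpposite.opLinearEquiv F : D ≃ₗ[F] Dᵐᵒᵖ).finrank_eq, ← hn, sq]
  exact ⟨(AlgEquiv.ofBijective Φ ⟨hinj, hsurj⟩).trans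
    (algEquivMatrix (Module.finBasisOfFinrankEq L Dᵐᵒᵖ hdim))⟩

end FA.CSA

end
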