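import Fermat.Agent.CSA.Frobenius
import Mathlib.Algebra.BrauerGroup.Defs
import Mathlib.LinearAlgebra.Matrix.Basis
import Mathlib.LinearAlgebra.Trace

/-!
# The Brauer group of `ℝ`
-/

set_option autoImplicit false

noncomputable section

universe v

open Module

namespace FA.CSA

/-- The real quaternions are central. -/
theorem isCentral_quaternion : Algebra.IsCentral ℝ (Quaternion ℝ) := by
  refine isCentral_of_noncomm (Quaternion ℝ) (x := ⟨0, 1, 0, 0⟩) (y := ⟨0, 0, 1, 0⟩) fun h => ?_
  have := congrArg (fun q : Quaternion ℝ => q.imK) h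
  simp at this
  norm_num at this

/-- A central simple real algebra is a matrix algebra over `ℝ` or over `ℍ`. -/
theorem exists_algEquiv_matrix_real (R : Type*) [Ring R] [Algebra ℝ R] [IsSimpleRing R]
    [Algebra.IsCentral ℝ R] [FiniteDimensional ℝ R] :
    ∃ n : ℕ, n ≠ 0 ∧ (Nonempty (R ≃ₐ[ℝ] Matrix (Fin n) (Fin n) ℝ) ∨
      Nonempty (R ≃ₐ[ℝ] Matrix (Fin n) (Fin n) (Quaternion ℝ))) := by
  have := IsArtinianRing.of_finite ℝ R
  obtain ⟨n, hn, E, _, _, _, ⟨e⟩⟩ := IsSimpleRing.exists_algEquiv_matrix_divisionRing_finite ℝ R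
  refine ⟨n, NeZero.ne n, ?_⟩
  rcases frobenius_real E with ⟨⟨f⟩⟩ | ⟨⟨f⟩⟩ | ⟨⟨f⟩⟩
  · exact Or.inl ⟨e.trans f.mapMatrix⟩
  · exfalso
    set g := e.trans f.mapMatrix
    have hc : g.symm (Matrix.scalar (Fin n) Complex.I) ∈ Subalgebra.center ℝ R :=
      Subalgebra.mem_center_iff.2 fun X => g.injective (by
        rw [map_mul, map_mul, AlgEquiv.apply_symm_apply]
        exact (Matrix.scalar_commute _ (Commute.all _) _).symm)
    obtain ⟨a, ha⟩ := Algebra.mem_bot.1 (Algebra.IsCentral.out hc)
    have h0 := congrArg Complex.im (congrFun₂ (congrArg g ha) 0 0)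
    simp [Matrix.scalar_apply, Matrix.algebraMap_matrix_apply] at h0
  · exact Or.inr ⟨e.trans f.mapMatrix⟩

/-- Matrices over `ℍ` are never matrices over `ℝ`. -/
theorem isEmpty_matrix_quaternion_algEquiv {n m : ℕ} (hn : n ≠ 0) :
    IsEmpty (Matrix (Fin n) (Fin n) (Quaternion ℝ) ≃ₐ[ℝ] Matrix (Fin m) (Fin m) ℝ) := by
  refine ⟨fun e => ?_⟩
  classical
  -- `m = 2 n`
  have hdim : n * n * 4 = m * m := by
    have h := e.toLinearEquiv.finrank_eq
    rwa [Module.finrank_matrix, Module.finrank_matrix, Fintype.card_fin, Fintype.card_fin,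
      Quaternion.finrank_eq_four, Module.finrank_self, mul_one] at h
  -- the images of the diagonal idempotents
  let P : Fin n → Module.End ℝ (Fin m → ℝ) := fun i =>
    Matrix.toLinAlgEquiv' (e (Matrix.single i i (1 : Quaternion ℝ)))
  let W : Fin n → Submodule ℝ (Fin m → ℝ) := fun i => LinearMap.range (P i)
  have hproj : ∀ i, LinearMap.IsProj (W i) (P i) := fun i =>
    ⟨fun x => LinearMap.mem_range_self _ x, by
      rintro _ ⟨y, rfl⟩
      show (P i * P i) y = P i y
      rw [← map_mul, ← map_mul, Matrix.single_mul_single_same, one_mul]⟩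
  have hsum : ∑ i, P i = 1 := by
    rw [← map_sum, ← map_sum, show ∑ i : Fin n, Matrix.single i i (1 : Quaternion ℝ) = 1 by
      refine Matrix.ext fun a b => ?_
      simp [Matrix.sum_apply, Matrix.single_apply, Matrix.one_apply, Finset.sum_ite_eq', ite_and],
      map_one, map_one]
  have hm : ∑ i, finrank ℝ (W i) = m := by
    have h := congrArg (LinearMap.trace ℝ (Fin m → ℝ)) hsum
    rw [map_sum, LinearMap.trace_one, Module.finrank_fin_fun,
      Finset.sum_congr rfl fun i _ => (hproj i).trace] at h
    exact_mod_cast h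
  -- each image is a vector space over `ℍ`
  have hfour : ∀ i, 4 ≤ finrank ℝ (W i) := fun i => by
    have hne : P i ≠ 0 := fun h => by
      have h0 : Matrix.single i i (1 : Quaternion ℝ) = 0 :=
        (e.trans Matrix.toLinAlgEquiv').injective (h.trans (map_zero _).symm)
      have := congrFun₂ h0 i i
      simp at this
    obtain ⟨y, hy⟩ : ∃ y, P i y ≠ 0 := by
      by_contra! h
      exact hne (LinearMap.ext h)
    let L : Quaternion ℝ →ₗ[ℝ] Fin m → ℝ :=
      { toFun := fun q => Matrix.toLinAlgEquiv' (e (Matrix.single i i q)) (P i y)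
        map_add' := fun q q' => by rw [Matrix.single_add, map_add, map_add, LinearMap.add_apply]
        map_smul' := fun c q => by
          rw [← Matrix.smul_single, map_smul, map_smul, LinearMap.smul_apply, RingHom.id_apply] }
    have hL : Function.Injective L := by
      rw [injective_iff_map_eq_zero]
      intro q hq
      by_contra hq0
      apply hy
      have h := congrArg (Matrix.toLinAlgEquiv' (e (Matrix.single i i q⁻¹))) hq
      simp only [L, LinearMap.coe_mk, AddHom.coe_mk, map_zero] at h
      rw [← Module.End.mul_apply, ← map_mul, ← map_mul, Matrix.single_mul_single_same,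
        inv_mul_cancel₀ hq0] at h
      rw [← h]
      show P i y = (P i * P i) y
      rw [← map_mul, ← map_mul, Matrix.single_mul_single_same, one_mul]
    rw [← Quaternion.finrank_eq_four (R := ℝ)]
    refine (LinearMap.finrank_le_finrank_of_injective
      (f := LinearMap.codRestrict (W i) L fun q => ⟨L q, ?_⟩)
      fun q q' h => hL (congrArg Subtype.val h))
    show (P i * Matrix.toLinAlgEquiv' (e (Matrix.single i i q))) (P i y) = _
    rw [← map_mul, ← map_mul, Matrix.single_mul_single_same, one_mul]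
    rfl
  have h4 : n * 4 ≤ m := hm ▸ le_of_eq_of_le (by simp) (Finset.sum_le_sum fun i _ => hfour i)
  nlinarith [Nat.pos_of_ne_zero hn]

end FA.CSA

end
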