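import Fermat.Agent.CSA.Subfields
import Mathlib.Algebra.Quaternion
import Mathlib.Algebra.QuaternionBasis
import Mathlib.Analysis.Complex.Polynomial.Basic

/-!
# Frobenius' theorem on real division algebras
-/

set_option autoImplicit false

noncomputable section

open Module

namespace FA.CSA

variable (D : Type*) [DivisionRing D] [Algebra ℝ D] [FiniteDimensional ℝ D]

/-- A noncommutative real division algebra is central. -/
theorem isCentral_of_noncomm {x y : D} (hxy : x * y ≠ y * x) : Algebra.IsCentral ℝ D := by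
  refine ⟨fun z hz => ?_⟩
  by_contra hzR
  -- a central square root of `-1`
  have hint : ∀ t : D, IsIntegral ℝ t := fun t => .of_finite ℝ t
  have key : ∀ t : D, (∀ c : ℝ, algebraMap ℝ D c ≠ t) →
      ∃ a e : ℝ, 0 < e ∧ (t - algebraMap ℝ D a) * (t - algebraMap ℝ D a) = algebraMap ℝ D (-e) := by
    intro t ht
    have hirr := minpoly.irreducible (hint t)
    have hmon := minpoly.monic (hint t)
    have hd : (minpoly ℝ t).natDegree = 2 := by
      have h1 := minpoly.natDegree_pos (hint t)
      have h2 := hirr.natDegree_le_two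
      have h3 : (minpoly ℝ t).natDegree ≠ 1 := fun h => by
        obtain ⟨c, hc⟩ := minpoly.natDegree_eq_one_iff.1 h
        exact ht c hc
      omega
    set b := (minpoly ℝ t).coeff 1
    set c := (minpoly ℝ t).coeff 0
    have hp : ∀ s : ℝ, Polynomial.eval s (minpoly ℝ t) = s ^ 2 + b * s + c := fun s => by
      rw [Polynomial.eval_eq_sum_range, hd]
      simp [Finset.sum_range_succ, b, c]
      rw [show (minpoly ℝ t).coeff 2 = 1 from hd ▸ hmon.coeff_natDegree]
      ring
    have he : 0 < c - (b / 2) ^ 2 := by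
      by_contra hle
      refine hirr.not_isRoot_of_natDegree_ne_one (by omega)
        (x := -(b / 2) + Real.sqrt ((b / 2) ^ 2 - c)) ?_
      have hsq := Real.sq_sqrt (show 0 ≤ (b / 2) ^ 2 - c by linarith [not_lt.1 hle])
      rw [Polynomial.IsRoot, hp]
      linear_combination hsq
    refine ⟨-(b / 2), c - (b / 2) ^ 2, he, ?_⟩
    have h0 := minpoly.aeval ℝ t
    rw [Polynomial.aeval_eq_sum_range, hd] at h0
    simp only [Finset.sum_range_succ, Finset.sum_range_zero, zero_add, pow_zero, pow_one,
      show (minpoly ℝ t).coeff 2 = 1 from hd ▸ hmon.coeff_natDegree, one_smul] at h0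
    change c • (1 : D) + b • t + t ^ 2 = 0 at h0
    rw [pow_two] at h0
    rw [map_neg, sub_neg_eq_add, Algebra.algebraMap_eq_smul_one, Algebra.algebraMap_eq_smul_one,
      mul_add, add_mul, add_mul, smul_mul_assoc, mul_smul_comm, one_mul, mul_one, smul_mul_assoc,
      one_mul, smul_smul, show t * t = -(c • (1 : D) + b • t) by
        linear_combination (norm := module) h0]
    module
  obtain ⟨a, e, he, hw⟩ := key z fun c hc => hzR (Algebra.mem_bot.2 ⟨c, hc⟩)
  set w := (Real.sqrt e)⁻¹ • (z - algebraMap ℝ D a) with hwd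
  have hww : w * w = -1 := by
    rw [hwd, smul_mul_assoc, mul_smul_comm, smul_smul, hw, Algebra.algebraMap_eq_smul_one,
      smul_smul, ← mul_inv, Real.mul_self_sqrt he.le, mul_neg, inv_mul_cancel₀ he.ne', neg_smul,
      one_smul]
  have hwc : ∀ t : D, Commute w t := fun t => by
    have h1 : Commute z t := (Subalgebra.mem_center_iff.1 hz t).symm
    exact ((h1.sub_left (Algebra.commutes a t)).smul_left _)
  clear_value w
  -- then everything commutes
  have hcen : ∀ t u : D, t * u = u * t := by
    intro t u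
    by_cases ht : ∃ c : ℝ, algebraMap ℝ D c = t
    · obtain ⟨c, rfl⟩ := ht
      exact Algebra.commutes c u
    push Not at ht
    obtain ⟨a, e, he, hs⟩ := key t ht
    have hm : (t - algebraMap ℝ D a - Real.sqrt e • w) *
        (t - algebraMap ℝ D a + Real.sqrt e • w) = 0 := by
      have hc : Commute (Real.sqrt e • w) (t - algebraMap ℝ D a) :=
        ((hwc t).sub_right (hwc _)).smul_left _
      rw [sub_mul, mul_add, mul_add, hs, hc.eq, smul_mul_assoc _ w, mul_smul_comm,
        mul_smul_comm, smul_smul, hww,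
        Real.mul_self_sqrt he.le, smul_neg, Algebra.algebraMap_eq_smul_one, neg_smul]
      abel
    have hcm : ∀ s : ℝ, Commute (algebraMap ℝ D a + s • w) u := fun s =>
      Commute.add_left (Algebra.commutes a u) ((hwc u).smul_left s)
    rcases mul_eq_zero.1 hm with h | h
    · rw [show t = algebraMap ℝ D a + Real.sqrt e • w by linear_combination (norm := module) h]
      exact hcm _
    · rw [show t = algebraMap ℝ D a + (-Real.sqrt e) • w by
        linear_combination (norm := module) h]
      exact hcm _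
  exact hxy (hcen x y)

/-- A noncommutative real division algebra is the quaternion algebra. -/
theorem nonempty_algEquiv_quaternion {x y : D} (hxy : x * y ≠ y * x) :
    Nonempty (Quaternion ℝ ≃ₐ[ℝ] D) := by
  have := isCentral_of_noncomm D hxy
  obtain ⟨L, hcomm, -, hC, hn⟩ := exists_maximal_subfield (F := ℝ) (D := D)
  let _ : Field L := (isField_of_comm L hcomm).toField
  rcases Real.nonempty_algEquiv_or L with ⟨⟨e⟩⟩ | ⟨⟨e⟩⟩
  · exfalso
    rw [e.toLinearEquiv.finrank_eq, Module.finrank_self, one_pow] at hn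
    have h1 : (⊥ : Subalgebra ℝ D) = ⊤ := Subalgebra.bot_eq_top_of_finrank_eq_one hn.symm
    obtain ⟨a, ha⟩ := Algebra.mem_bot.1 (h1 ▸ (Algebra.mem_top : x ∈ (⊤ : Subalgebra ℝ D)))
    exact hxy (ha ▸ Algebra.commutes a y)
  have hn4 : finrank ℝ D = 4 := by
    rw [← hn, e.toLinearEquiv.finrank_eq, Complex.finrank_real_complex]
    norm_num
  let f : ℂ →ₐ[ℝ] D := L.val.comp e.symm.toAlgHom
  have hfL : ∀ d : D, (∀ z, f z * d = d * f z) → ∃ z, f z = d := fun d hd => by
    have h : d ∈ Subalgebra.centralizer ℝ (L : Set D) :=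
      (Subalgebra.mem_centralizer_iff ℝ).2 fun g hg => by simpa [f] using hd (e ⟨g, hg⟩)
    rw [hC] at h
    exact ⟨e ⟨d, h⟩, by simp [f]⟩
  obtain ⟨u, hu⟩ := exists_conj f (f.comp Complex.conjAe.toAlgHom)
  have hu' : ∀ z, f (starRingEnd ℂ z) * u = u * f z := fun z => by
    have h := hu z
    simp only [AlgHom.comp_apply, AlgEquiv.coe_toAlgHom, Complex.conjAe_coe] at h
    rw [h, Units.inv_mul_cancel_right]
  obtain ⟨z, hz⟩ := hfL (u * u) fun z => by
    have h1 := hu' z
    have h2 := hu' (starRingEnd ℂ z)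
    rw [Complex.conj_conj] at h2
    rw [← mul_assoc, h2, mul_assoc, h1, mul_assoc]
  have hre : starRingEnd ℂ z = z := f.toRingHom.injective (by
    have h := hu' z
    rw [hz, ← mul_assoc, ← hz] at h
    exact mul_right_cancel₀ u.ne_zero h)
  obtain ⟨r, rfl⟩ := Complex.conj_eq_iff_real.1 hre
  have huu : (u : D) * u = algebraMap ℝ D r := hz.symm.trans (f.commutes r)
  have hI : f Complex.I * f Complex.I = -1 := by rw [← map_mul, Complex.I_mul_I, map_neg, map_one]
  have hanti : (u : D) * f Complex.I = -(f Complex.I * u) := by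
    rw [← hu', Complex.conj_I, map_neg, neg_mul]
  have hr : r < 0 := by
    by_contra h
    have hs : ((u : D) - algebraMap ℝ D (Real.sqrt r)) * (u + algebraMap ℝ D (Real.sqrt r)) =
        0 := by
      rw [sub_mul, mul_add, mul_add, huu, Algebra.commutes, ← map_mul,
        Real.mul_self_sqrt (not_lt.1 h)]
      abel
    obtain ⟨s, hs⟩ : ∃ s, algebraMap ℝ D s = u := by
      rcases mul_eq_zero.1 hs with h | h
      · exact ⟨_, (sub_eq_zero.1 h).symm⟩
      · exact ⟨-Real.sqrt r, by rw [map_neg]; exact (eq_neg_of_add_eq_zero_left h).symm⟩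
    rw [← hs, Algebra.commutes, hs] at hanti
    have h2 : (2 : ℝ) • (f Complex.I * u) = 0 := by
      rw [two_smul]; nth_rw 1 [hanti]; exact neg_add_cancel _
    rcases mul_eq_zero.1 ((smul_eq_zero.1 h2).resolve_left two_ne_zero) with h3 | h3
    · rw [h3, mul_zero, eq_comm, neg_eq_zero] at hI
      exact one_ne_zero hI
    · exact u.ne_zero h3
  let q : QuaternionAlgebra.Basis D (-1 : ℝ) 0 (-1) :=
    { i := f Complex.I
      j := (Real.sqrt (-r))⁻¹ • (u : D)
      k := f Complex.I * ((Real.sqrt (-r))⁻¹ • (u : D))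
      i_mul_i := by simp [hI]
      j_mul_j := by
        rw [smul_mul_assoc, mul_smul_comm, smul_smul, huu, Algebra.algebraMap_eq_smul_one,
          smul_smul, ← mul_inv, Real.mul_self_sqrt (neg_nonneg.2 hr.le)]
        congr 1
        field_simp [hr.ne]
      i_mul_j := rfl
      j_mul_i := by
        rw [zero_smul, zero_sub, smul_mul_assoc, hanti, mul_smul_comm, smul_neg] }
  let Q : Quaternion ℝ →ₐ[ℝ] D := q.liftHom
  have hinj : Function.Injective Q := Q.toRingHom.injective
  exact ⟨AlgEquiv.ofBijective Q ⟨hinj,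
    (LinearMap.injective_iff_surjective_of_finrank_eq_finrank (f := Q.toLinearMap)
      (by rw [Quaternion.finrank_eq_four, hn4])).1 hinj⟩⟩

/-- **The theorem of Frobenius**: `ℝ`, `ℂ` and `ℍ` are the only finite-dimensional real division
algebras. -/
theorem frobenius_real : Nonempty (D ≃ₐ[ℝ] ℝ) ∨ Nonempty (D ≃ₐ[ℝ] ℂ) ∨
    Nonempty (D ≃ₐ[ℝ] Quaternion ℝ) := by
  by_cases h : ∀ x y : D, x * y = y * x
  · let _ : Field D := { ‹DivisionRing D› with mul_comm := h }
    exact (Real.nonempty_algEquiv_or D).imp_right Or.inl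
  · push Not at h
    obtain ⟨x, y, hxy⟩ := h
    exact Or.inr (Or.inr ((nonempty_algEquiv_quaternion D hxy).map AlgEquiv.symm))

end FA.CSA

end
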