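import Mathlib.LinearAlgebra.Dimension.Constructions
import Mathlib.LinearAlgebra.FiniteDimensional.Basic
import Mathlib.LinearAlgebra.Matrix.ToLin
import Mathlib.RingTheory.SimpleModule.WedderburnArtin
import Mathlib.RingTheory.SimpleRing.Congr
import Mathlib.RingTheory.SimpleRing.Matrix

/-!
# Modules over a finite-dimensional simple algebra

They are determined by their dimension, and the dimension of the endomorphism algebra times that of
the algebra is the square of the dimension.
-/

set_option autoImplicit false

noncomputable section

open Module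

namespace FA.CSA

variable (F : Type*) [Field F] {R : Type*} [Ring R] [Algebra F R] [FiniteDimensional F R]
  [IsSimpleRing R]

/-- Every module is a sum of copies of one given simple module. -/
theorem nonempty_linearEquiv_pi {S : Type*} [AddCommGroup S] [Module R S] [IsSimpleModule R S]
    (M : Type*) [AddCommGroup M] [Module F M] [Module R M] [IsScalarTower F R M]
    [FiniteDimensional F M] : ∃ k : ℕ, Nonempty (M ≃ₗ[R] Fin k → S) := by
  have := IsArtinianRing.of_finite F R
  have : Module.Finite R M := Module.Finite.of_restrictScalars_finite F R M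
  obtain ⟨k, T, e, hT⟩ := IsSemisimpleModule.exists_linearEquiv_fin_dfinsupp R M
  classical
  have hS : ∀ i, Nonempty (T i ≃ₗ[R] S) := fun i => by
    have := hT i
    let f := (LinearMap.inl R M S).comp (T i).subtype
    let g := LinearMap.inr R M S
    have hf : Function.Injective f := LinearMap.inl_injective.comp (T i).subtype_injective
    have hg : Function.Injective g := LinearMap.inr_injective
    have := IsSimpleModule.congr (LinearEquiv.ofInjective f hf).symm
    have := IsSimpleModule.congr (LinearEquiv.ofInjective g hg).symm
    obtain ⟨u⟩ := IsSimpleRing.isIsotypic R (M × S) (LinearMap.range g) (LinearMap.range f)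
    exact ⟨((LinearEquiv.ofInjective f hf).trans u).trans (LinearEquiv.ofInjective g hg).symm⟩
  exact ⟨k, ⟨e.trans ((DFinsupp.mapRange.linearEquiv fun i => (hS i).some).trans
    ((finsuppLequivDFinsupp R).symm.trans (Finsupp.linearEquivFunOnFinite R S (Fin k))))⟩⟩

variable (M : Type*) [AddCommGroup M] [Module F M] [Module R M] [IsScalarTower F R M]
  [FiniteDimensional F M]

/-- **Modules of the same dimension are isomorphic.** -/
theorem nonempty_linearEquiv_of_finrank_eq (N : Type*) [AddCommGroup N] [Module F N] [Module R N]
    [IsScalarTower F R N] [FiniteDimensional F N] (h : finrank F M = finrank F N) :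
    Nonempty (M ≃ₗ[R] N) := by
  have := IsArtinianRing.of_finite F R
  obtain ⟨S, hS⟩ := IsAtomic.exists_atom (Submodule R R)
  rw [← isSimpleModule_iff_isAtom] at hS
  obtain ⟨k, ⟨e⟩⟩ := nonempty_linearEquiv_pi F (R := R) (S := S) M
  obtain ⟨l, ⟨e'⟩⟩ := nonempty_linearEquiv_pi F (R := R) (S := S) N
  have : Nontrivial S := IsSimpleModule.nontrivial R S
  have : FiniteDimensional F S :=
    FiniteDimensional.of_injective (S.subtype.restrictScalars F) S.subtype_injective
  have hk : k * finrank F S = l * finrank F S := by
    rwa [(e.restrictScalars F).finrank_eq, (e'.restrictScalars F).finrank_eq,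
      Module.finrank_pi_fintype, Module.finrank_pi_fintype, Finset.sum_const, Finset.sum_const,
      Finset.card_univ, Finset.card_univ, Fintype.card_fin, Fintype.card_fin, smul_eq_mul,
      smul_eq_mul] at h
  obtain rfl : k = l := Nat.eq_of_mul_eq_mul_right Module.finrank_pos hk
  exact ⟨e.trans e'.symm⟩

variable [SMulCommClass R F M]

/-- **Dimension of the endomorphism algebra.** -/
theorem finrank_end_mul : finrank F (Module.End R M) * finrank F R = finrank F M ^ 2 := by
  classical
  have := IsArtinianRing.of_finite F R
  obtain ⟨S, hS⟩ := IsAtomic.exists_atom (Submodule R R)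
  rw [← isSimpleModule_iff_isAtom] at hS
  obtain ⟨k, ⟨e⟩⟩ := nonempty_linearEquiv_pi F (R := R) (S := S) M
  obtain ⟨r, ⟨e'⟩⟩ := nonempty_linearEquiv_pi F (R := R) (S := S) R
  have : FiniteDimensional F S :=
    FiniteDimensional.of_injective (S.subtype.restrictScalars F) S.subtype_injective
  have : FiniteDimensional F (Module.End R S) := FiniteDimensional.of_injective
    (LinearMap.restrictScalarsₗ F R S S F) (LinearMap.restrictScalars_injective F)
  have hR : finrank F R = r * r * finrank F (Module.End R S) := by
    rw [(MulOpposite.opLinearEquiv F : R ≃ₗ[F] Rᵐᵒᵖ).finrank_eq,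
      (((AlgEquiv.moduleEndSelf F).trans (e'.conjAlgEquiv F)).trans
        (endVecAlgEquivMatrixEnd (ι := Fin r) (R := F) (A := R) (M := S))).toLinearEquiv.finrank_eq,
      Module.finrank_matrix, Fintype.card_fin]
  have hR' : finrank F R = r * finrank F S := by
    rw [(e'.restrictScalars F).finrank_eq, Module.finrank_pi_fintype, Finset.sum_const,
      Finset.card_univ, Fintype.card_fin, smul_eq_mul]
  have hM : finrank F M = k * finrank F S := by
    rw [(e.restrictScalars F).finrank_eq, Module.finrank_pi_fintype, Finset.sum_const,
      Finset.card_univ, Fintype.card_fin, smul_eq_mul]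
  have hE : finrank F (Module.End R M) = k * k * finrank F (Module.End R S) := by
    rw [((e.conjAlgEquiv F).trans (endVecAlgEquivMatrixEnd (ι := Fin k) (R := F) (A := R)
      (M := S))).toLinearEquiv.finrank_eq, Module.finrank_matrix, Fintype.card_fin]
  have hr : r ≠ 0 := fun h => by
    rw [h, zero_mul, Module.finrank_zero_iff] at hR'
    exact not_subsingleton R hR'
  have hS' : finrank F S = r * finrank F (Module.End R S) :=
    Nat.eq_of_mul_eq_mul_left (Nat.pos_of_ne_zero hr) (by rw [← hR', hR, mul_assoc])
  rw [hE, hR, hM, hS']
  ring

omit [IsScalarTower F R M] [FiniteDimensional F M] [SMulCommClass R F M] in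
/-- **The endomorphism algebra is simple.** -/
theorem isSimpleRing_end [IsScalarTower F R M] [FiniteDimensional F M] [Nontrivial M] :
    IsSimpleRing (Module.End R M) := by
  classical
  have := IsArtinianRing.of_finite F R
  obtain ⟨S, hS⟩ := IsAtomic.exists_atom (Submodule R R)
  rw [← isSimpleModule_iff_isAtom] at hS
  obtain ⟨k, ⟨e⟩⟩ := nonempty_linearEquiv_pi F (R := R) (S := S) M
  have : Nonempty (Fin k) := by
    by_contra h
    have := not_nonempty_iff.1 h
    exact not_subsingleton M e.toEquiv.subsingleton
  exact IsSimpleRing.of_ringEquiv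
    ((e.conjRingEquiv).trans (endVecRingEquivMatrixEnd (Fin k) R S)).symm
    (inferInstance : IsSimpleRing (Matrix (Fin k) (Fin k) (Module.End R S)))

end FA.CSA

end
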